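import Mathlib.NumberTheory.DirichletCharacter.Basic
import Fermat.Prelude.Def_FLTPrelim_Modularity

/-!
# The eigenform with algebraic coefficients entering the product with the weight one form
-/

set_option autoImplicit false

noncomputable section

open CongruenceSubgroup

namespace Fermat.Agent.Row48

/-- A weight one form of level `N` with the eigenvalues `a` away from `N`, normalised at `1`, whose
coefficients are algebraic integers up to one denominator. -/
def AlgebraicForm (N : ℕ) (ε : DirichletCharacter ℂ N) (a : ℕ → ℂ) : Prop :=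
  ∃ f₀ : CuspForm (Gamma1 N) 1, ModularFormClass.qCoeff f₀ 1 = 1 ∧
    (∀ p : ℕ, p.Prime → ¬ p ∣ N → ∀ n : ℕ,
      ModularFormClass.qCoeff f₀ (p * n) +
          ε (p : ZMod N) * (if p ∣ n then ModularFormClass.qCoeff f₀ (n / p) else 0) =
        a p * ModularFormClass.qCoeff f₀ n) ∧
    ∃ D : ℕ, D ≠ 0 ∧ ∀ n : ℕ, IsIntegral ℤ ((D : ℂ) * ModularFormClass.qCoeff f₀ n)

end Fermat.Agent.Row48

end
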