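import Fermat.Agent.Row48.Product.Forms
import Fermat.Prelude.Sol.S_ModularForm_heckeT_slash_eq_self_of_mem_Gamma0
import Mathlib.NumberTheory.LSeries.PrimesInAP

/-!
# The nebentypus of a Hecke eigenform

If the coefficients satisfy the relation of `T_p` with `ε(p)` for the primes `p ∤ N`, then
`f ∣ γ = ε(d) f` on `Γ₀(N)`: the discrepancy `h` has `h` and `h(pτ)` both invariant under `Γ₁(N)`,
which forces `h(p²τ) = p⁻¹ (h ∣ ⟨p⟩⁻¹)(τ)` and kills all coefficients.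
-/

set_option autoImplicit false

noncomputable section

open CongruenceSubgroup UpperHalfPlane Matrix.SpecialLinearGroup ModularForm
open scoped MatrixGroups ModularForm
open P2MW.S_ModularForm_heckeT_slash_eq_self_of_mem_Gamma0.ModularForm.HeckeSlashInvariance

namespace Fermat.Agent.Row48.Product

open Periods (SeriesOf)

variable {N p : ℕ}

theorem natCast_isUnit (hp : p.Prime) (hpN : ¬ p ∣ N) : IsUnit (p : ZMod N) :=
  (ZMod.isUnit_iff_coprime p N).mpr (hp.coprime_iff_not_dvd.mpr hpN)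

theorem val_mapGL (g : SL(2, ℤ)) : (mapGL ℝ g : Matrix (Fin 2) (Fin 2) ℝ) =
    !![((g 0 0 : ℤ) : ℝ), ((g 0 1 : ℤ) : ℝ); ((g 1 0 : ℤ) : ℝ), ((g 1 1 : ℤ) : ℝ)] := by
  ext i j
  fin_cases i <;> fin_cases j <;> simp

/-- An element of `Γ₀(N)` with lower right entry `p`. -/
theorem exists_lift (hp : p.Prime) (hpN : ¬ p ∣ N) :
    ∃ (a b : ℤ) (γ : SL(2, ℤ)), γ ∈ Gamma0 N ∧ a * p - b * N = 1 ∧
      γ 0 0 = a ∧ γ 0 1 = b ∧ γ 1 0 = N ∧ γ 1 1 = p := by
  obtain ⟨u, v, huv⟩ := (Nat.isCoprime_iff_coprime.mpr (hp.coprime_iff_not_dvd.mpr hpN) :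
    IsCoprime (p : ℤ) (N : ℤ))
  exact ⟨u, -v, ⟨!![u, -v; (N : ℤ), (p : ℤ)], by rw [Matrix.det_fin_two_of]; linarith⟩,
    Gamma0_mem.mpr (by simp), by linarith, rfl, rfl, rfl, rfl⟩

/-- The same class with upper right entry divisible by `p`. -/
theorem exists_lift_dvd (hp : p.Prime) (hpN : ¬ p ∣ N) :
    ∃ (a b : ℤ) (γ : SL(2, ℤ)), γ ∈ Gamma0 N ∧ a * (p + N) - p * b * N = 1 ∧
      γ 0 0 = a ∧ γ 0 1 = p * b ∧ γ 1 0 = N ∧ γ 1 1 = p + N := by
  have h1 : Nat.Coprime (p + N) (p * N) := by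
    refine Nat.Coprime.mul_right ?_ ?_
    · rw [Nat.coprime_self_add_left, Nat.coprime_comm]
      exact hp.coprime_iff_not_dvd.mpr hpN
    · rw [Nat.coprime_add_self_left]
      exact hp.coprime_iff_not_dvd.mpr hpN
  obtain ⟨u, v, huv⟩ := (Nat.isCoprime_iff_coprime.mpr h1 :
    IsCoprime ((p + N : ℕ) : ℤ) ((p * N : ℕ) : ℤ))
  push_cast at huv
  exact ⟨u, -v, ⟨!![u, p * -v; (N : ℤ), (p : ℤ) + N], by rw [Matrix.det_fin_two_of]; linarith⟩,
    Gamma0_mem.mpr (by simp), by linarith, rfl, rfl, rfl, rfl⟩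

/-- `φ(pτ)` is still invariant. -/
def Good (N p : ℕ) (φ : ℍ → ℂ) : Prop :=
  ∀ γ ∈ Gamma1 N, (φ ∣[(1 : ℤ)] heckeDiagMatrix p) ∣[(1 : ℤ)] (mapGL ℝ γ) =
    φ ∣[(1 : ℤ)] heckeDiagMatrix p

theorem Good.diamond {φ : ℍ → ℂ} (hφ : ∀ γ ∈ Gamma1 N, φ ∣[(1 : ℤ)] γ = φ) (h : Good N p φ)
    (hp : p.Prime) (hpN : ¬ p ∣ N) {x : SL(2, ℤ)} (hx : x ∈ Gamma0 N)
    (hd : ((x 1 1 : ℤ) : ZMod N) = (p : ZMod N)) : Good N p (φ ∣[(1 : ℤ)] x) := by
  obtain ⟨a, b, y, hy, hab, h00, h01, h10, h11⟩ := exists_lift_dvd hp hpN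
  let z : SL(2, ℤ) := ⟨!![a, b; p * N, p + N], by rw [Matrix.det_fin_two_of]; linarith⟩
  have hz : z ∈ Gamma0 N := Gamma0_mem.mpr (by simp [z])
  have hmul : mapGL ℝ y * heckeDiagMatrix p = heckeDiagMatrix p * mapGL ℝ z := by
    apply Units.ext
    simp only [Units.val_mul, val_mapGL, val_heckeDiagMatrix hp.ne_zero, h00, h01, h10, h11,
      Matrix.mul_fin_two]
    simp [z, mul_comm]
  intro γ hγ
  rw [slash_eq_of_dval hφ hx hy (by rw [hd, h11]; simp), slash_sl,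
    ← SlashAction.slash_mul _ (mapGL ℝ y),
    hmul, SlashAction.slash_mul, ← SlashAction.slash_mul _ (mapGL ℝ z), ← map_mul,
    show z * γ = z * γ * z⁻¹ * z by group, map_mul, SlashAction.slash_mul, h _ (conj_mem hz hγ)]

/-- The scalar matrix `p`. -/
def scalarMat (p : ℕ) (hp : p ≠ 0) : GL (Fin 2) ℝ :=
  upperTriangularGL p 0 p (mul_ne_zero (by exact_mod_cast hp) (by exact_mod_cast hp))

theorem slash_scalarMat (hp : p ≠ 0) (φ : ℍ → ℂ) :
    φ ∣[(1 : ℤ)] scalarMat p hp = (p : ℂ)⁻¹ • φ := by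
  funext τ
  have hdet : ((scalarMat p hp).det : ℝ) = p * p := by
    rw [Matrix.GeneralLinearGroup.val_det_apply, scalarMat, val_upperTriangularGL,
      Matrix.det_fin_two_of]
    ring
  have hpos : 0 < ((scalarMat p hp).det : ℝ) := by
    rw [hdet]; positivity
  have hsmul : scalarMat p hp • τ = τ := by
    apply UpperHalfPlane.ext
    have hp' : (p : ℂ) ≠ 0 := Nat.cast_ne_zero.mpr hp
    rw [coe_smul_of_det_pos hpos]
    simp [num, denom, scalarMat, hp']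
  rw [slash_apply, σ, if_pos hpos, hsmul, hdet]
  simp [denom, scalarMat, mul_comm]

/-- The key relation: `φ(p²τ)` is a diamond translate of `φ`. -/
theorem Good.exists_relation [NeZero N] (φ : CuspForm (Gamma1 N) 1) (h : Good N p φ)
    (hp : p.Prime) (hpN : ¬ p ∣ N) :
    ∃ (ψ : CuspForm (Gamma1 N) 1) (x : SL(2, ℤ)), x ∈ Gamma0 N ∧
      ((x 1 1 : ℤ) : ZMod N) = (p : ZMod N) ∧ ⇑ψ ∣[(1 : ℤ)] x = ⇑φ ∧
      ∀ τ : ℍ, ψ τ = (p : ℂ) * φ (heckeDiagMatrix p • heckeDiagMatrix p • τ) := by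
  obtain ⟨a, b, x, hx, hab, h00, h01, h10, h11⟩ := exists_lift hp hpN
  refine ⟨Product.diamond φ x⁻¹ (inv_mem hx), x, hx, by rw [h11]; simp, ?_, fun τ => ?_⟩
  · rw [coe_diamond, ← SlashAction.slash_mul, inv_mul_cancel, SlashAction.slash_one]
  let γ : SL(2, ℤ) := ⟨!![p * a, b; (N : ℤ), 1], by rw [Matrix.det_fin_two_of]; linarith⟩
  have hγ : γ ∈ Gamma1 N := mem_Gamma1_of (Gamma0_mem.mpr (by simp [γ])) (by simp [γ])
  set δ := heckeDiagMatrix p
  have hmul : scalarMat p hp.ne_zero * δ * mapGL ℝ γ = δ * δ * mapGL ℝ x * δ := by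
    apply Units.ext
    simp only [δ, scalarMat, Units.val_mul, val_mapGL, val_heckeDiagMatrix hp.ne_zero,
      val_upperTriangularGL, h00, h01, h10, h11, Matrix.mul_fin_two]
    ext i j
    fin_cases i <;> fin_cases j <;> simp [γ] <;> ring
  have h1 : (⇑φ ∣[(1 : ℤ)] δ) ∣[(1 : ℤ)] δ = (p : ℂ)⁻¹ • (⇑φ ∣[(1 : ℤ)] mapGL ℝ x⁻¹) := by
    have h2 : (((⇑φ ∣[(1 : ℤ)] δ) ∣[(1 : ℤ)] δ) ∣[(1 : ℤ)] mapGL ℝ x) ∣[(1 : ℤ)] δ =
        ((p : ℂ)⁻¹ • ⇑φ) ∣[(1 : ℤ)] δ := by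
      simp only [← SlashAction.slash_mul, ← hmul]
      rw [SlashAction.slash_mul, SlashAction.slash_mul, slash_scalarMat]
      simp only [ModularForm.smul_slash, δ, σ_heckeDiagMatrix, ContinuousAlgEquiv.refl_apply]
      have hσ : σ (mapGL ℝ γ) = .refl ℝ ℂ := by simp [σ]
      rw [hσ, ContinuousAlgEquiv.refl_apply, h γ hγ]
    have h3 := congrArg (fun F : ℍ → ℂ => (F ∣[(1 : ℤ)] δ⁻¹) ∣[(1 : ℤ)] mapGL ℝ x⁻¹) h2
    simp only [← SlashAction.slash_mul, mul_assoc, mul_inv_cancel, mul_one,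
      map_inv] at h3
    rw [← SlashAction.slash_mul]
    convert h3 using 1
    rw [one_mul, ← map_inv, ModularForm.smul_slash]
    simp [σ]
  have h4 := congrFun h1 τ
  rw [slash_heckeDiagMatrix_apply _ hp.ne_zero, slash_heckeDiagMatrix_apply _ hp.ne_zero,
    Pi.smul_apply, smul_eq_mul] at h4
  simp only [sub_self, zpow_zero, one_mul] at h4
  rw [h4, coe_diamond, slash_sl, ← mul_assoc, mul_inv_cancel₀ (Nat.cast_ne_zero.mpr hp.ne_zero),
    one_mul]

theorem Good.eq_zero [NeZero N] (φ : CuspForm (Gamma1 N) 1) (h : Good N p φ)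
    (hp : p.Prime) (hpN : ¬ p ∣ N) : ⇑φ = 0 := by
  suffices H : ∀ n, ∀ ψ : CuspForm (Gamma1 N) 1, Good N p ψ → ModularFormClass.qCoeff ψ n = 0 by
    funext τ
    refine (series φ τ).unique ?_
    simp [H _ φ h, hasSum_zero]
  intro n
  induction n using Nat.strong_induction_on with
  | _ n ih =>
    intro ψ hψ
    obtain ⟨a, b, x, hx, -, -, -, -, h11⟩ := exists_lift hp hpN
    let ψ₁ := Product.diamond ψ x hx
    have hd : ((x 1 1 : ℤ) : ZMod N) = (p : ZMod N) := by rw [h11]; simp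
    have hψ₁ : Good N p ψ₁ := hψ.diamond (fun _ h => slash_form ψ h) hp hpN hx hd
    obtain ⟨θ, y, hy, hyd, hθ, hrel⟩ := hψ₁.exists_relation ψ₁ hp hpN
    have he : ⇑θ = ⇑ψ := by
      rw [coe_diamond, slash_eq_of_dval (fun _ h => slash_form ψ h) hx hy (hd.trans hyd.symm)] at hθ
      have h := congrArg (fun F : ℍ → ℂ => F ∣[(1 : ℤ)] y⁻¹) hθ
      simpa only [← SlashAction.slash_mul, mul_inv_cancel, SlashAction.slash_one] using h
    have hp0 := hp.ne_zero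
    have hs : SeriesOf ⇑θ ((p : ℂ) • fun m => if p ∣ m then
        (if p ∣ m / p then ModularFormClass.qCoeff ψ₁ (m / p / p) else 0) else 0) := by
      have h := (((series ψ₁).diag hp0).diag hp0).smul (p : ℂ)
      intro τ
      rw [hrel τ]
      exact h τ
    have heq := (series θ).add (hs.smul (-1))
    rw [neg_one_smul, add_neg_cancel] at heq
    have hn := heq.eq_zero n
    simp only [Pi.add_apply, Pi.smul_apply, smul_eq_mul] at hn
    rw [← he]
    rcases Nat.eq_zero_or_pos n with rfl | hpos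
    · exact qCoeff_zero θ
    · have hlt : n / p / p < n :=
        (Nat.div_le_self _ _).trans_lt (Nat.div_lt_self hpos hp.one_lt)
      rw [ih _ hlt ψ₁ hψ₁] at hn
      simpa using hn

variable [NeZero N] (ε : DirichletCharacter ℂ N) (f : CuspForm (Gamma1 N) 1)

/-- The translate by an element with lower right entry `p`. -/
theorem slash_eq_of_relation (hp : p.Prime) (hpN : ¬ p ∣ N) (a : ℂ)
    (hT : ∀ n : ℕ, ModularFormClass.qCoeff f (p * n) +
        ε (p : ZMod N) * (if p ∣ n then ModularFormClass.qCoeff f (n / p) else 0) =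
      a * ModularFormClass.qCoeff f n)
    {x : SL(2, ℤ)} (hx : x ∈ Gamma0 N) (hd : ((x 1 1 : ℤ) : ZMod N) = (p : ZMod N)) :
    ⇑f ∣[(1 : ℤ)] x = ε (p : ZMod N) • ⇑f := by
  have : Fact p.Prime := ⟨hp⟩
  have : NeZero p := ⟨hp.ne_zero⟩
  set e := ε (p : ZMod N)
  let c : OnePoint (ZMod p) → SL(2, ℤ) := fun y => y.elim x fun _ => 1
  have hc : ∀ y, c y ∈ Gamma0 N := fun y => by cases y <;> simp [c, hx, one_mem]
  let E : OnePoint (ZMod p) → ℕ := fun y => y.elim 1 fun _ => p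
  have hE : ∀ y, IsUnit ((E y : ℕ) : ZMod N) := fun y => by
    cases y <;> simp [E, natCast_isUnit hp hpN]
  have hcE : ∀ y, ((c y 1 1 : ℤ) : ZMod N) * (E y : ZMod N) = (p : ZMod N) := fun y => by
    cases y <;> simp [c, E, hd]
  let F : OnePoint (ZMod p) → ℍ → ℂ := fun y => (⇑f ∣[(1 : ℤ)] c y) ∣[(1 : ℤ)] heckeRep p y
  set U : ℍ → ℂ := heckeU 1 p ⇑f
  set D : ℍ → ℂ := ⇑f ∣[(1 : ℤ)] heckeDiagMatrix p
  have hU : U + e • D = a • ⇑f := by
    funext τ
    have hs1 : SeriesOf U fun n => ModularFormClass.qCoeff f (n * p) := by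
      have h := (series f).average (p := p)
      intro τ
      rw [show U τ = (p : ℂ)⁻¹ * ∑ j : ZMod p, f (heckeMatrix p j.val • τ) by
        show heckeU 1 p (⇑f) τ = _
        rw [heckeU_apply _ hp.ne_zero, sum_range_eq_sum_zmod (p := p)]]
      exact h τ
    have hs2 : SeriesOf D fun n => if p ∣ n then ModularFormClass.qCoeff f (n / p) else 0 := by
      intro τ
      rw [show D τ = f (heckeDiagMatrix p • τ) by
        simp [D, slash_heckeDiagMatrix_apply _ hp.ne_zero]]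
      exact (series f).diag hp.ne_zero τ
    refine ((hs1.add (hs2.smul e)) τ).unique ?_
    convert ((series f).smul a) τ using 2 with n
    simp only [Pi.add_apply, Pi.smul_apply, smul_eq_mul]
    rw [mul_comm n p, hT n]
  have hF : ∑ y, F y = U + (⇑f ∣[(1 : ℤ)] x) ∣[(1 : ℤ)] heckeDiagMatrix p := by
    refine (Fintype.sum_option F).trans ?_
    rw [add_comm]
    congr 1
    simp only [U, heckeU_eq_sum_zmod]
    refine Finset.sum_congr rfl fun j _ => ?_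
    show (⇑f ∣[(1 : ℤ)] (1 : SL(2, ℤ))) ∣[(1 : ℤ)] heckeMatrix p j.val = _
    rw [SlashAction.slash_one]
  have hinv : ∀ γ ∈ Gamma1 N, (∑ y, F y) ∣[(1 : ℤ)] mapGL ℝ γ = ∑ y, F y := by
    intro γ hγ
    have hγc : (N : ℤ) ∣ γ 1 0 :=
      (ZMod.intCast_zmod_eq_zero_iff_dvd _ _).mp (Gamma0_mem.mp (Gamma1_in_Gamma0 N hγ))
    rw [SlashAction.sum_slash]
    refine Eq.trans (Finset.sum_congr rfl fun y _ => ?_)
      (Equiv.sum_comp (MulAction.toPerm (redMatrix p γ)) F)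
    obtain ⟨g, hgc, hmul⟩ := heckeRep_mul hpN γ hγc y
    set y' := redMatrix p γ • y
    have hgN : g ∈ Gamma0 N := Gamma0_mem.mpr ((ZMod.intCast_zmod_eq_zero_iff_dvd _ _).mpr hgc)
    have hdg : (E y' : ZMod N) * ((g 1 1 : ℤ) : ZMod N) = (E y : ZMod N) := by
      have h11 := congrArg (fun M : GL (Fin 2) ℝ => (M : Matrix (Fin 2) (Fin 2) ℝ) 1 1) hmul
      obtain ⟨m, hm⟩ : ∃ m : ℤ, ((E y : ℕ) : ℤ) * γ 1 1 = g 1 0 * m + g 1 1 * (E y' : ℕ) := by
        have h' : ∀ w : OnePoint (ZMod p), ∃ m : ℤ,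
            (heckeRep p w : Matrix (Fin 2) (Fin 2) ℝ) 0 1 = (m : ℝ) ∧
            (heckeRep p w : Matrix (Fin 2) (Fin 2) ℝ) 1 0 = 0 ∧
            (heckeRep p w : Matrix (Fin 2) (Fin 2) ℝ) 1 1 = (E w : ℝ) := fun w => by
          cases w with
          | infty => exact ⟨0, by simp [E, hp.ne_zero]⟩
          | coe j => exact ⟨j.val, by simp [E, hp.ne_zero]⟩
        obtain ⟨m, hm1, -, hm3⟩ := h' y'
        obtain ⟨m', -, hy2, hy3⟩ := h' y
        refine ⟨m, ?_⟩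
        simp only [Units.val_mul, Matrix.mul_apply, Fin.sum_univ_two, hy2, hy3, hm1, hm3, zero_mul,
          zero_add] at h11
        simp only [mapGL_apply] at h11
        exact_mod_cast h11
      have h := congrArg (fun z : ℤ => (z : ZMod N)) hm
      simp only [Int.cast_mul, Int.cast_natCast, Int.cast_add, dval_eq_one hγ, Gamma0_mem.mp hgN,
        zero_mul, zero_add, mul_one] at h
      rw [h, mul_comm]
    show ((⇑f ∣[(1 : ℤ)] c y) ∣[(1 : ℤ)] heckeRep p y) ∣[(1 : ℤ)] mapGL ℝ γ = F y'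
    rw [← SlashAction.slash_mul, hmul, SlashAction.slash_mul, ← slash_sl (k := 1),
      ← SlashAction.slash_mul, slash_eq_of_dval (fun _ h => slash_form f h)
        (mul_mem (hc y) hgN) (hc y') ?_]
    rw [dval_mul (hc y) hgN]
    refine (hE y').mul_right_cancel ?_
    rw [hcE y', mul_assoc, mul_comm ((g 1 1 : ℤ) : ZMod N), hdg, hcE]
  let h : CuspForm (Gamma1 N) 1 := Product.diamond f x hx - e • f
  have hh : ⇑h = ⇑f ∣[(1 : ℤ)] x - e • ⇑f := rfl
  have hgood : Good N p h := by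
    intro γ hγ
    have hsplit : ⇑h ∣[(1 : ℤ)] heckeDiagMatrix p = ∑ y, F y - a • ⇑f := by
      rw [hF, ← hU, hh, sub_eq_add_neg, SlashAction.add_slash, SlashAction.neg_slash,
        ModularForm.smul_slash, σ_heckeDiagMatrix, ContinuousAlgEquiv.refl_apply]
      abel
    rw [hsplit, sub_eq_add_neg, SlashAction.add_slash, hinv γ hγ, SlashAction.neg_slash,
      ModularForm.smul_slash, ← slash_sl (k := 1), slash_form f hγ]
    simp [σ]
  have h0 := hgood.eq_zero h hp hpN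
  rw [hh, sub_eq_zero] at h0
  exact h0

/-- **The nebentypus of an eigenform.** -/
theorem slash_eq_char (a : ℕ → ℂ)
    (hT : ∀ p : ℕ, p.Prime → ¬ p ∣ N → ∀ n : ℕ, ModularFormClass.qCoeff f (p * n) +
        ε (p : ZMod N) * (if p ∣ n then ModularFormClass.qCoeff f (n / p) else 0) =
      a p * ModularFormClass.qCoeff f n)
    {x : SL(2, ℤ)} (hx : x ∈ Gamma0 N) :
    ⇑f ∣[(1 : ℤ)] x = ε ((x 1 1 : ℤ) : ZMod N) • ⇑f := by
  obtain ⟨p, hpN, hp, hpd⟩ :=
    Nat.forall_exists_prime_gt_and_eq_mod (isUnit_dval hx) N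
  have hnd : ¬ p ∣ N := fun h => absurd (Nat.le_of_dvd (NeZero.pos N) h) (not_le.mpr hpN)
  rw [← hpd]
  exact slash_eq_of_relation ε f hp hnd (a p) (hT p hp hnd) hx hpd.symm

end Fermat.Agent.Row48.Product

end
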