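import Fermat.Agent.Row48.Product.Forms
import Mathlib.NumberTheory.DirichletCharacter.Basic

/-!
# The product of a weight one cusp form with a weight one modular form
-/

set_option autoImplicit false

noncomputable section

open CongruenceSubgroup UpperHalfPlane
open scoped MatrixGroups ModularForm Manifold

namespace Fermat.Agent.Row48.Product

variable {N L : ℕ}

theorem gamma1_mono {M : ℕ} (h : L ∣ M) : Gamma1 M ≤ Gamma1 L := by
  intro x hx
  obtain ⟨h1, h2, h3⟩ := (Gamma1_mem M x).mp hx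
  have hc := fun z : ℤ => ZMod.cast_intCast h (R := ZMod L) z
  refine (Gamma1_mem L x).mpr ⟨?_, ?_, ?_⟩
  · rw [← hc, h1, ZMod.cast_one h]
  · rw [← hc, h2, ZMod.cast_one h]
  · rw [← hc, h3, ZMod.cast_zero]

theorem gamma0_mono {M : ℕ} (h : L ∣ M) : Gamma0 M ≤ Gamma0 L := by
  intro x hx
  rw [Gamma0_mem] at hx ⊢
  rw [← ZMod.cast_intCast h (R := ZMod L), hx, ZMod.cast_zero]

variable [NeZero N] [NeZero L]

/-- The product, a cusp form of weight two on `Γ₁(NL)`. -/
def mulForm (f : CuspForm (Gamma1 N) 1) (E : ModularForm (Gamma1 L) 1) :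
    CuspForm (Gamma1 (N * L)) 2 :=
  haveI : NeZero (N * L) := ⟨mul_ne_zero (NeZero.ne N) (NeZero.ne L)⟩
  cuspOf (⇑f * ⇑E)
    (fun γ hγ => by
      have h := ModularForm.mul_slash_SL2 (1 : ℤ) 1 γ (⇑f) ⇑E
      rw [slash_form f (gamma1_mono (dvd_mul_right N L) hγ),
        show ⇑E ∣[(1 : ℤ)] γ = ⇑E from SlashInvariantFormClass.slash_action_eq E _
          (Subgroup.mem_map_of_mem _ (gamma1_mono (dvd_mul_left L N) hγ))] at h
      exact h)
    ((CuspFormClass.holo f).mul (ModularFormClass.holo E))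
    fun δ => by
      rw [show (2 : ℤ) = 1 + 1 by norm_num, ModularForm.mul_slash_SL2]
      exact (CuspFormClass.zero_at_infty_slash f δ).mul_boundedAtFilter
        (ModularFormClass.bdd_at_infty_slash E δ)

@[simp] theorem coe_mulForm (f : CuspForm (Gamma1 N) 1) (E : ModularForm (Gamma1 L) 1) :
    ⇑(mulForm f E) = ⇑f * ⇑E := rfl

theorem qCoeff_mulForm (f : CuspForm (Gamma1 N) 1) (E : ModularForm (Gamma1 L) 1) (n : ℕ) :
    ModularFormClass.qCoeff (mulForm f E) n = ∑ x ∈ Finset.antidiagonal n,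
      ModularFormClass.qCoeff f x.1 * ModularFormClass.qCoeff E x.2 := by
  rw [ModularFormClass.qCoeff, coe_mulForm,
    UpperHalfPlane.qExpansion_mul
      (ModularFormClass.analyticAt_cuspFunction_zero f one_pos one_mem_periods)
      (ModularFormClass.analyticAt_cuspFunction_zero E one_pos one_mem_periods),
    PowerSeries.coeff_mul]
  rfl

/-- The product of the two characters. -/
def mulChar' (ε : DirichletCharacter ℂ N) (χ : DirichletCharacter ℂ L) :
    DirichletCharacter ℂ (N * L) :=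
  DirichletCharacter.changeLevel (dvd_mul_right N L) ε *
    DirichletCharacter.changeLevel (dvd_mul_left L N) χ

omit [NeZero N] [NeZero L] in
theorem mulChar'_intCast (ε : DirichletCharacter ℂ N) (χ : DirichletCharacter ℂ L) {z : ℤ}
    (h : IsUnit (z : ZMod (N * L))) :
    mulChar' ε χ (z : ZMod (N * L)) = ε (z : ZMod N) * χ (z : ZMod L) := by
  obtain ⟨u, hu⟩ := h
  rw [← hu, mulChar', MulChar.coeToFun_mul, Pi.mul_apply,
    DirichletCharacter.changeLevel_eq_cast_of_dvd, DirichletCharacter.changeLevel_eq_cast_of_dvd,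
    hu, ZMod.cast_intCast (dvd_mul_right N L), ZMod.cast_intCast (dvd_mul_left L N)]

theorem slash_mulForm (f : CuspForm (Gamma1 N) 1) (E : ModularForm (Gamma1 L) 1)
    (ε : DirichletCharacter ℂ N) (χ : DirichletCharacter ℂ L)
    (hf : ∀ x ∈ Gamma0 N, ⇑f ∣[(1 : ℤ)] x = ε ((x 1 1 : ℤ) : ZMod N) • ⇑f)
    (hE : ∀ x ∈ Gamma0 L, ⇑E ∣[(1 : ℤ)] x = χ ((x 1 1 : ℤ) : ZMod L) • ⇑E)
    {x : SL(2, ℤ)} (hx : x ∈ Gamma0 (N * L)) :
    ⇑(mulForm f E) ∣[(2 : ℤ)] x = mulChar' ε χ ((x 1 1 : ℤ) : ZMod (N * L)) • ⇑(mulForm f E) := by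
  rw [mulChar'_intCast ε χ (isUnit_dval hx), coe_mulForm, show (2 : ℤ) = 1 + 1 by norm_num,
    ModularForm.mul_slash_SL2, hf x (gamma0_mono (dvd_mul_right N L) hx),
    hE x (gamma0_mono (dvd_mul_left L N) hx), smul_mul_smul_comm]

/-- The character of a nonzero form of weight two is even. -/
theorem char_neg_one {M : ℕ} [NeZero M] (g : CuspForm (Gamma1 M) 2) (ψ : DirichletCharacter ℂ M)
    (hg : ∀ x : SL(2, ℤ), x ∈ Gamma0 M → ⇑g ∣[(2 : ℤ)] x = ψ ((x 1 1 : ℤ) : ZMod M) • ⇑g)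
    {n : ℕ} (hn : ModularFormClass.qCoeff g n ≠ 0) : ψ (-1) = 1 := by
  obtain ⟨τ, hτ⟩ : ∃ τ : ℍ, g τ ≠ 0 := by
    by_contra h
    push Not at h
    exact hn ((Periods.SeriesOf.eq_zero (a := ModularFormClass.qCoeff g)
      (fun τ => by simpa [h τ] using series g τ)) n)
  have h := congrFun (hg (-1) (Gamma0_mem.mpr (by simp))) τ
  rw [ModularForm.SL_slash_apply] at h
  simp [denom] at h
  refine mul_right_cancel₀ hτ ?_
  rw [one_mul]
  simpa using h.symm

end Fermat.Agent.Row48.Product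

end
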