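import Fermat.Agent.EllLocal.Mult.Residual
import Fermat.Agent.Frobenius.Exists
import Fermat.Agent.Row48.Family
import Fermat.Agent.Row48.EigenClass.Main
import Fermat.Agent.Row48.WeightOne.Main
import Fermat.Agent.Row48.Product.Diamond
import Fermat.Agent.Row48.Product.Weight

/-!
# Residual representations of a weight one eigenform

For a large prime `ℓ ≡ 11 mod 12` and a place over it the product with the weight one form of level
`ℓ` congruent to `1` is a weight two eigenform modulo the place; the cover gives its representation.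
-/

set_option autoImplicit false

noncomputable section

open CongruenceSubgroup
open scoped MatrixGroups ModularForm

namespace Fermat.Agent.Row48.Product

open ModularFormClass (qCoeff)

variable {A : ValuationSubring ℂ}

theorem residue_eq_zero_of_mem {z : A} (h : (z : ℂ) ∈ A.nonunits) :
    IsLocalRing.residue A z = 0 := by
  rw [IsLocalRing.residue_eq_zero_iff, ← ValuationSubring.coe_mem_nonunits_iff]
  exact h

variable {N : ℕ} [NeZero N] {ℓ : ℕ}

/-- The eigenclass of the product at one place. -/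
theorem exists_eigenClass (hℓ : ℓ.Prime) (h7 : 7 < ℓ) (hA : (ℓ : ℂ) ∈ A.nonunits)
    (ε : DirichletCharacter ℂ N) (a : ℕ → ℂ) (f : CuspForm (Gamma1 N) 1) (hf1 : qCoeff f 1 = 1)
    (hT : ∀ p : ℕ, p.Prime → ¬ p ∣ N → ∀ n : ℕ,
      qCoeff f (p * n) + ε (p : ZMod N) * (if p ∣ n then qCoeff f (n / p) else 0) =
        a p * qCoeff f n)
    (hmem : ∀ n, qCoeff f n ∈ A) :
    ∃ (χ : (ZMod (N * ℓ))ˣ →* (IsLocalRing.ResidueField A)ˣ)
      (b : ℕ → IsLocalRing.ResidueField A), χ (-1) = 1 ∧ Cover.EigenClass (N * ℓ) χ b ∧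
        ∀ (p : ℕ) (_ : p.Prime) (hp : p.Coprime (N * ℓ)) (x y : A),
          (x : ℂ) = a p → (y : ℂ) = ε (p : ZMod N) →
            b p = IsLocalRing.residue A x ∧
            (p : IsLocalRing.ResidueField A) *
                (χ (ZMod.unitOfCoprime p hp) : IsLocalRing.ResidueField A) =
              IsLocalRing.residue A y := by
  classical
  have : Fact ℓ.Prime := ⟨hℓ⟩
  have : NeZero (N * ℓ) := ⟨mul_ne_zero (NeZero.ne N) hℓ.ne_zero⟩
  obtain ⟨χ₁, E, hE, hχ₁, hE0, hEn⟩ :=
    WeightOne.exists_weightOne A hA (by omega) (by omega) (by omega)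
  set g := mulForm f E
  set ψ := mulChar' ε χ₁
  have hg : ∀ x : SL(2, ℤ), x ∈ Gamma0 (N * ℓ) →
      ⇑g ∣[(2 : ℤ)] x = ψ ((x 1 1 : ℤ) : ZMod (N * ℓ)) • ⇑g := fun x hx =>
    slash_mulForm f E ε χ₁ (fun y hy => slash_eq_char ε f a hT hy) hE hx
  let res := IsLocalRing.residue A
  let u : ℕ → A := fun n => ⟨qCoeff f n, hmem n⟩
  have hemem : ∀ n, qCoeff E n ∈ A := fun n => by
    rcases Nat.eq_zero_or_pos n with rfl | hn
    · rw [hE0]; exact A.one_mem
    · exact A.nonunits_subset (hEn n hn)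
  let e : ℕ → A := fun n => ⟨qCoeff E n, hemem n⟩
  let c : ℕ → A := fun n => ∑ x ∈ Finset.HasAntidiagonal.antidiagonal n, u x.1 * e x.2
  have hc : ∀ n, (c n : ℂ) = qCoeff g n := fun n => by
    rw [qCoeff_mulForm]
    simp [c, u, e]
  have hcu : ∀ n, res (c n) = res (u n) := fun n => by
    simp only [c, map_sum, map_mul]
    rw [Finset.sum_eq_single (n, 0)]
    · rw [show e 0 = 1 from Subtype.ext hE0]
      simp [res]
    · rintro ⟨i, j⟩ hij hne
      have hj : 0 < j := Nat.pos_of_ne_zero fun hj => hne (by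
        rw [Finset.HasAntidiagonal.mem_antidiagonal] at hij
        simp only at hij
        simp [hj, show i = n by omega])
      rw [show res (e j) = 0 from residue_eq_zero_of_mem (hEn j hj), mul_zero]
    · intro h
      exact absurd (Finset.HasAntidiagonal.mem_antidiagonal.mpr (add_zero n)) h
  have h1 : res (c 1) = 1 := by
    rw [hcu, show u 1 = 1 from Subtype.ext hf1]
    exact map_one res
  let χA : ∀ z : ZMod (N * ℓ), A := fun z => ⟨ψ z, mem_of_isIntegral A (isIntegral_char ψ z)⟩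
  let χ : (ZMod (N * ℓ))ˣ →* (IsLocalRing.ResidueField A)ˣ := MonoidHom.toHomUnits
    { toFun := fun z => res (χA (z : ZMod (N * ℓ)))
      map_one' := by
        rw [show χA ((1 : (ZMod (N * ℓ))ˣ) : ZMod (N * ℓ)) = 1 from Subtype.ext (by simp [χA])]
        exact map_one res
      map_mul' := fun z w => by
        rw [← map_mul]
        exact congrArg res (Subtype.ext (by simp [χA])) }
  let b : ℕ → A := fun p => if hp : p.Prime ∧ ¬ p ∣ N then ⟨a p, by
      have h := hT p hp.1 hp.2 1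
      rw [mul_one, if_neg (fun h1 => hp.1.one_lt.ne' (Nat.dvd_one.mp h1)), mul_zero, add_zero, hf1,
        mul_one] at h
      rw [← h]
      exact hmem p⟩ else 0
  have hb : ∀ p : ℕ, p.Prime → ¬ p ∣ N → (b p : ℂ) = a p := fun p hp hpN => by
    simp only [b, dif_pos (And.intro hp hpN)]
  let εA : ℕ → A := fun p => ⟨ε (p : ZMod N), mem_of_isIntegral A (isIntegral_char ε _)⟩
  have hψp : ∀ p : ℕ, p.Prime → ¬ p ∣ N * ℓ →
      (p : IsLocalRing.ResidueField A) * res (χA (p : ZMod (N * ℓ))) = res (εA p) := by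
    intro p hp hpM
    let χ₁A : A := ⟨χ₁ (p : ZMod ℓ), mem_of_isIntegral A (isIntegral_char χ₁ _)⟩
    have hu : IsUnit ((p : ℤ) : ZMod (N * ℓ)) := by
      rw [Int.cast_natCast]
      exact natCast_isUnit hp hpM
    have hval : χA (p : ZMod (N * ℓ)) = εA p * χ₁A := Subtype.ext (by
      have h := mulChar'_intCast ε χ₁ hu
      simp only [Int.cast_natCast] at h
      simpa [χA, εA, χ₁A] using h)
    have h0 : res (χ₁A * (p : A) - 1) = 0 := by
      refine residue_eq_zero_of_mem ?_
      simpa [χ₁A] using hχ₁ p fun h =>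
        hpM (((Nat.prime_dvd_prime_iff_eq hℓ hp).mp h) ▸ dvd_mul_left ℓ N)
    rw [map_sub, map_mul, map_one, map_natCast, sub_eq_zero] at h0
    rw [hval, map_mul, mul_comm, mul_assoc, h0, mul_one]
  have hψ : ψ (-1) = 1 := char_neg_one g ψ hg (n := 1) fun h => by
    have h' : c 1 = 0 := Subtype.ext (by rw [hc, h]; rfl)
    rw [h', map_zero] at h1
    exact zero_ne_one h1
  refine ⟨χ, fun p => res (b p), Units.ext ?_, Periods.eigenClass_of_form hℓ hA g ψ hψ hg c hc
    (by rw [h1]; exact one_ne_zero) b (fun p hp hpM n => ?_) χ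
    (fun z y hy => congrArg res (Subtype.ext hy)), fun p hp hcop x y hx hy => ?_⟩
  · show res (χA ((-1 : (ZMod (N * ℓ))ˣ) : ZMod (N * ℓ))) = 1
    rw [show χA ((-1 : (ZMod (N * ℓ))ˣ) : ZMod (N * ℓ)) = 1 from
      Subtype.ext (by simp [χA, hψ])]
    exact map_one res
  · have hpN : ¬ p ∣ N := fun h => hpM (h.trans (dvd_mul_right N ℓ))
    let z : A := c (n * p) + (if p ∣ n then χA (p : ZMod (N * ℓ)) * ((p : A) * c (n / p)) else 0) -
      b p * c n
    have hz : res z = 0 := by
      have h := congrArg res (Subtype.ext (by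
        have := hT p hp hpN n
        rw [mul_comm p n] at this
        rw [← hb p hp hpN] at this
        push_cast [u, εA]
        split_ifs at this ⊢ <;> simpa using this) :
          u (n * p) + εA p * (if p ∣ n then u (n / p) else 0) = b p * u n)
      simp only [z, map_sub, map_add, map_mul, apply_ite res, map_zero, hcu]
      simp only [map_add, map_mul, apply_ite res, map_zero] at h
      rw [← h, ← hψp p hp hpM, map_natCast res p]
      split_ifs <;> ring
    rw [← ValuationSubring.mem_nonunits_iff]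
    have hz' : (z : ℂ) ∈ A.nonunits := by
      rw [ValuationSubring.coe_mem_nonunits_iff, ← IsLocalRing.residue_eq_zero_iff]
      exact hz
    convert hz' using 1
    simp only [z]
    split_ifs <;> simp [hc, χA]
  · have hpM : ¬ p ∣ N * ℓ := hp.coprime_iff_not_dvd.mp hcop
    have hpN : ¬ p ∣ N := fun h => hpM (h.trans (dvd_mul_right N ℓ))
    refine ⟨congrArg res (Subtype.ext ((hb p hp hpN).trans hx.symm)), ?_⟩
    show (p : IsLocalRing.ResidueField A) *
      res (χA ((ZMod.unitOfCoprime p hcop : (ZMod (N * ℓ))ˣ) : ZMod (N * ℓ))) = res y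
    rw [ZMod.coe_unitOfCoprime, hψp p hp hpM]
    exact congrArg res (Subtype.ext hy.symm)

/-- The coefficients are integral at a place where the denominator is a unit. -/
theorem mem_of_denominator {D : ℕ} (hD : (D : ℂ) ∉ A.nonunits) {z : ℂ}
    (h : IsIntegral ℤ ((D : ℂ) * z)) : z ∈ A := by
  have hv : A.valuation (D : ℂ) = 1 :=
    le_antisymm ((A.valuation_le_one_iff _).mpr (natCast_mem A D)) (not_lt.mp hD)
  rw [← A.valuation_le_one_iff, ← one_mul (A.valuation z), ← hv, ← map_mul]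
  rw [hv]
  exact (A.valuation_le_one_iff _).mpr (mem_of_isIntegral A h)

/-- **Residual representations from the arithmetic of the cover.** -/
theorem residualReps_of_algebraicForm (hcov : Cover.EigenClassHasRep) {N : ℕ} [NeZero N]
    (ε : DirichletCharacter ℂ N) (a : ℕ → ℂ) (hf : AlgebraicForm N ε a) :
    ResidualReps N ε a := by
  intro B
  obtain ⟨f, hf1, hT, D, hD0, hD⟩ := hf
  obtain ⟨B₀, hB₀⟩ := exists_bound_of_isIntegral (r := (D : ℂ))
    (by simpa using isIntegral_algebraMap (R := ℤ) (A := ℂ) (x := (D : ℤ)))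
    (Nat.cast_ne_zero.mpr hD0)
  obtain ⟨ℓ, hℓB, hℓ, h12⟩ := Nat.forall_exists_prime_gt_and_modEq (B + B₀ + N + 7)
    (q := 12) (a := 11) (by norm_num) (by norm_num)
  obtain ⟨A, hA⟩ := Frobenius.exists_liesOverPrime ℂ hℓ
  have hA' : (ℓ : ℂ) ∈ A.nonunits := hA
  have hmem : ∀ n, qCoeff f n ∈ A := fun n => mem_of_denominator (fun h => by
    have := hB₀ ℓ hℓ A hA' h
    omega) (hD n)
  obtain ⟨χ, b, hχ, hclass, hb⟩ := exists_eigenClass hℓ (by omega) hA' ε a f hf1 hT hmem
  have : NeZero (N * ℓ) := ⟨mul_ne_zero (NeZero.ne N) hℓ.ne_zero⟩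
  have hN := NeZero.pos N
  have hmod : ℓ % 12 = 11 := h12
  have hlev : Cover.LevelOK (N * ℓ) :=
    ⟨le_trans (by omega) (Nat.le_mul_of_pos_left ℓ hN),
      ⟨ℓ, hℓ, dvd_mul_left _ _, by omega⟩, ⟨ℓ, hℓ, dvd_mul_left _ _, by omega⟩⟩
  have htot : ¬ ℓ ∣ Nat.totient (N * ℓ) := fun h => by
    rw [Nat.totient_mul ((hℓ.coprime_iff_not_dvd.mpr fun hd => by
      have := Nat.le_of_dvd hN hd
      omega).symm), Nat.totient_prime hℓ] at h
    rcases hℓ.dvd_mul.mp h with h' | h'
    · have := Nat.le_of_dvd (Nat.totient_pos.mpr hN) h'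
      have := Nat.totient_le N
      omega
    · have := Nat.le_of_dvd (by omega) h'
      omega
  have : IsAlgClosed (IsLocalRing.ResidueField A) := EllLocal.Mult.isAlgClosed_residueField A
  have : Fact ℓ.Prime := ⟨hℓ⟩
  have hchar : CharP (IsLocalRing.ResidueField A) ℓ := WeightOne.charP_residue hA'
  obtain ⟨ρ, hρ1, hρ2, hρ3⟩ := hcov _ (N * ℓ) ℓ hlev hℓ hchar (dvd_mul_left ℓ N) htot χ b hχ hclass
  refine ⟨ℓ, by omega, hℓ, A, hA', ρ, hρ1, hρ2, fun p hp hpM P hP => ?_⟩
  have hcop : p.Coprime (N * ℓ) := hp.coprime_iff_not_dvd.mpr hpM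
  obtain ⟨hun, hfrob⟩ := hρ3 p hp hcop P hP
  refine ⟨hun, fun σ hσ x y hx hy => ?_⟩
  obtain ⟨ht, hd⟩ := hfrob σ hσ
  obtain ⟨h1, h2⟩ := hb p hp hcop x y hx hy
  exact ⟨ht.trans h1, hd.trans h2⟩

end Fermat.Agent.Row48.Product

end
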