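import Fermat.Agent.Row48.Product.Defs
import Fermat.Agent.Row48.EigenClass.Series

/-!
# Cusp forms on `Γ₁(N)` from functions, and the diamond operators
-/

set_option autoImplicit false

noncomputable section

open CongruenceSubgroup UpperHalfPlane
open scoped MatrixGroups ModularForm Manifold

namespace Fermat.Agent.Row48.Product

open Periods (SeriesOf)

variable {N : ℕ} {k : ℤ}

theorem one_mem_periods : (1 : ℝ) ∈ ((Gamma1 N : Subgroup (GL (Fin 2) ℝ))).strictPeriods := by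
  simp

/-- A cusp form on `Γ₁(N)` from an invariant holomorphic function vanishing at all cusps. -/
def cuspOf [NeZero N] (φ : ℍ → ℂ) (hinv : ∀ γ ∈ Gamma1 N, φ ∣[k] γ = φ)
    (hol : MDifferentiable 𝓘(ℂ) 𝓘(ℂ) φ) (hz : ∀ δ : SL(2, ℤ), IsZeroAtImInfty (φ ∣[k] δ)) :
    CuspForm (Gamma1 N) k where
  toFun := φ
  slash_action_eq' := by rintro _ ⟨γ, hγ, rfl⟩; exact hinv γ hγ
  holo' := hol
  zero_at_cusps' {c} hc := by
    rw [Subgroup.IsArithmetic.isCusp_iff_isCusp_SL2Z] at hc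
    rw [OnePoint.isZeroAt_iff_forall_SL2Z hc]
    exact fun δ _ => hz δ

theorem slash_sl (φ : ℍ → ℂ) (γ : SL(2, ℤ)) :
    φ ∣[k] γ = φ ∣[k] (Matrix.SpecialLinearGroup.mapGL ℝ γ) := rfl

theorem slash_form (f : CuspForm (Gamma1 N) k) {γ : SL(2, ℤ)} (hγ : γ ∈ Gamma1 N) :
    ⇑f ∣[k] γ = ⇑f :=
  SlashInvariantFormClass.slash_action_eq f _ (Subgroup.mem_map_of_mem _ hγ)

theorem dval_mul {x y : SL(2, ℤ)} (hx : x ∈ Gamma0 N) (hy : y ∈ Gamma0 N) :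
    (((x * y) 1 1 : ℤ) : ZMod N) = ((x 1 1 : ℤ) : ZMod N) * ((y 1 1 : ℤ) : ZMod N) :=
  map_mul (Gamma0Map N) ⟨x, hx⟩ ⟨y, hy⟩

theorem dval_inv_mul {x : SL(2, ℤ)} (hx : x ∈ Gamma0 N) :
    ((x⁻¹ 1 1 : ℤ) : ZMod N) * ((x 1 1 : ℤ) : ZMod N) = 1 := by
  rw [← dval_mul (inv_mem hx) hx, inv_mul_cancel]
  simp

theorem isUnit_dval {x : SL(2, ℤ)} (hx : x ∈ Gamma0 N) : IsUnit ((x 1 1 : ℤ) : ZMod N) :=
  IsUnit.of_mul_eq_one_right _ (dval_inv_mul hx)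

theorem mem_Gamma1_of {x : SL(2, ℤ)} (hx : x ∈ Gamma0 N) (hd : ((x 1 1 : ℤ) : ZMod N) = 1) :
    x ∈ Gamma1 N :=
  (Gamma1_mem N x).mpr ((Gamma1_to_Gamma0_mem ⟨x, hx⟩).mp hd)

theorem dval_eq_one {x : SL(2, ℤ)} (hx : x ∈ Gamma1 N) : ((x 1 1 : ℤ) : ZMod N) = 1 :=
  ((Gamma1_mem N x).mp hx).2.1

theorem conj_mem {x γ : SL(2, ℤ)} (hx : x ∈ Gamma0 N) (hγ : γ ∈ Gamma1 N) :
    x * γ * x⁻¹ ∈ Gamma1 N := by
  have hγ0 := Gamma1_in_Gamma0 N hγ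
  refine mem_Gamma1_of (mul_mem (mul_mem hx hγ0) (inv_mem hx)) ?_
  rw [dval_mul (mul_mem hx hγ0) (inv_mem hx), dval_mul hx hγ0, dval_eq_one hγ, mul_one, mul_comm,
    dval_inv_mul hx]

/-- Invariance is kept by `Γ₀(N)`. -/
theorem slash_slash {φ : ℍ → ℂ} (hφ : ∀ γ ∈ Gamma1 N, φ ∣[k] γ = φ) {x γ : SL(2, ℤ)}
    (hx : x ∈ Gamma0 N) (hγ : γ ∈ Gamma1 N) : (φ ∣[k] x) ∣[k] γ = φ ∣[k] x := by
  rw [← SlashAction.slash_mul, show x * γ = x * γ * x⁻¹ * x by group, SlashAction.slash_mul,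
    hφ _ (conj_mem hx hγ)]

/-- The translate depends on the class of `d` only. -/
theorem slash_eq_of_dval {φ : ℍ → ℂ} (hφ : ∀ γ ∈ Gamma1 N, φ ∣[k] γ = φ) {x y : SL(2, ℤ)}
    (hx : x ∈ Gamma0 N) (hy : y ∈ Gamma0 N)
    (h : ((x 1 1 : ℤ) : ZMod N) = ((y 1 1 : ℤ) : ZMod N)) : φ ∣[k] x = φ ∣[k] y := by
  have hm : x * y⁻¹ ∈ Gamma1 N := mem_Gamma1_of (mul_mem hx (inv_mem hy)) (by
    rw [dval_mul hx (inv_mem hy), h, mul_comm, dval_inv_mul hy])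
  rw [show x = x * y⁻¹ * y by group, SlashAction.slash_mul, hφ _ hm]

/-- The diamond operator of an element of `Γ₀(N)`. -/
def diamond [NeZero N] (f : CuspForm (Gamma1 N) k) (x : SL(2, ℤ)) (hx : x ∈ Gamma0 N) :
    CuspForm (Gamma1 N) k :=
  cuspOf (⇑f ∣[k] x) (fun _ hγ => slash_slash (fun _ h => slash_form f h) hx hγ)
    ((CuspFormClass.holo f).slash k _) fun δ => by
      rw [← SlashAction.slash_mul]
      exact CuspFormClass.zero_at_infty_slash f _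

@[simp] theorem coe_diamond [NeZero N] (f : CuspForm (Gamma1 N) k) (x : SL(2, ℤ))
    (hx : x ∈ Gamma0 N) : ⇑(diamond f x hx) = ⇑f ∣[k] x := rfl

theorem series [NeZero N] (f : CuspForm (Gamma1 N) k) :
    SeriesOf ⇑f (ModularFormClass.qCoeff f) := fun τ =>
  ModularForm.hasSum_qExpansion f one_pos one_mem_periods τ

theorem qCoeff_zero [NeZero N] (f : CuspForm (Gamma1 N) k) : ModularFormClass.qCoeff f 0 = 0 :=
  CuspFormClass.qExpansion_coeff_zero f one_pos one_mem_periods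

end Fermat.Agent.Row48.Product

end
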